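/-
S59lib / RT / Fam / Basic  (helper9) — Project I, brick JOIN-strict, part 1.

**Jointly injective families of local homomorphisms** `ψ i : R → A i` (the shape of a JOIN ring `R ⊆ ∏ A i`), and the
descent of the EQUATIONAL local conditions of a representation `ρ` over `R` from its pushforwards `ρ ⊗_{ψ i} A i`:

* `matrix_eq_of_family`, `isUnit_of_family`;
* `isUnramifiedAt_of_family`;
* `isUnipotentOnInertiaAt_of_family`.
-/
import Mathlib
import Fermat.Agent.TeamA.MatRep
import Fermat.Prelude.Def_GaloisRep_LocalConditions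

set_option autoImplicit false
set_option linter.unusedSectionVars false
set_option linter.style.haveILetI false

noncomputable section

namespace Fermat.Agent.S59lib.RT.Fam

open IsLocalRing Fermat.Agent.TeamA.Rep Polynomial

local notation "Qb" => AlgebraicClosure ℚ
local notation "GQ" => (AlgebraicClosure ℚ ≃ₐ[ℚ] AlgebraicClosure ℚ)

variable {R : Type} [CommRing R] [IsLocalRing R] {ι : Type} {A : ι → Type} [∀ i, CommRing (A i)]
  [∀ i, IsLocalRing (A i)] (ψ : ∀ i, R →+* A i) (hψ : ∀ i, IsLocalHom (ψ i))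

/-- the family `ψ` is jointly injective -/
def JointlyInjective : Prop := ∀ x : R, (∀ i, ψ i x = 0) → x = 0

variable {ψ}

theorem JointlyInjective.eq (hinj : JointlyInjective ψ) {x y : R} (h : ∀ i, ψ i x = ψ i y) : x = y := by
  rw [← sub_eq_zero]
  exact hinj _ fun i => by rw [map_sub, h i, sub_self]

theorem JointlyInjective.matrix_eq (hinj : JointlyInjective ψ) {M M' : Matrix (Fin 2) (Fin 2) R}
    (h : ∀ i, M.map (ψ i) = M'.map (ψ i)) : M = M' := by
  ext j k
  refine hinj.eq fun i => ?_
  have := congrFun (congrFun (h i) j) k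
  rwa [Matrix.map_apply, Matrix.map_apply] at this

theorem JointlyInjective.poly_eq (hinj : JointlyInjective ψ) {f g : R[X]}
    (h : ∀ i, f.map (ψ i) = g.map (ψ i)) : f = g := by
  ext n
  refine hinj.eq fun i => ?_
  have := congrArg (fun q => q.coeff n) (h i)
  simpa [Polynomial.coeff_map] using this

/-- a unit in ONE local quotient is a unit -/
theorem isUnit_of_family (hψ : ∀ i, IsLocalHom (ψ i)) {x : R} (i : ι) (h : IsUnit (ψ i x)) : IsUnit x :=
  haveI := hψ i
  isUnit_of_map_unit (ψ i) x h

variable (ρ : GaloisRepAdic R)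

theorem linearMap_eq_of_matOf_eq (b : Module.Basis (Fin 2) R ρ.V) {f g : Module.End R ρ.V}
    (h : LinearMap.toMatrix b b f = LinearMap.toMatrix b b g) : f = g :=
  (LinearMap.toMatrix b b).injective h

/-- **unramifiedness descends along a jointly injective family** -/
theorem isUnramifiedAt_of_family (hinj : JointlyInjective ψ) {q : ℕ}
    (h : ∀ i, (ρ.baseChangeAlong (ψ i) (hψ i)).IsUnramifiedAt q) : ρ.IsUnramifiedAt q := by
  intro P hP σ hσ
  let b : Module.Basis (Fin 2) R ρ.V := Module.finBasisOfFinrankEq R ρ.V ρ.finrank_eq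
  apply linearMap_eq_of_matOf_eq ρ b
  rw [LinearMap.toMatrix_one]
  show matOf ρ b σ = 1
  refine hinj.matrix_eq fun i => ?_
  rw [← matOf_baseChangeAlong (ψ i) (hψ i) ρ b σ]
  unfold matOf
  rw [h i P hP σ hσ, LinearMap.toMatrix_one, Matrix.map_one _ (map_zero _) (map_one _)]

theorem charpoly_eq_matOf (b : Module.Basis (Fin 2) R ρ.V) (σ : GQ) :
    LinearMap.charpoly (ρ.ρ σ) = (matOf ρ b σ).charpoly :=
  (LinearMap.charpoly_toMatrix (ρ.ρ σ) b).symm

/-- **unipotence on inertia descends along a jointly injective family** -/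
theorem isUnipotentOnInertiaAt_of_family (hinj : JointlyInjective ψ) {q : ℕ}
    (h : ∀ i, (ρ.baseChangeAlong (ψ i) (hψ i)).IsUnipotentOnInertiaAt q) :
    ρ.IsUnipotentOnInertiaAt q := by
  intro P hP σ hσ
  let b : Module.Basis (Fin 2) R ρ.V := Module.finBasisOfFinrankEq R ρ.V ρ.finrank_eq
  refine hinj.poly_eq fun i => ?_
  have h1 := h i P hP σ hσ
  rw [charpoly_eq_matOf _ (bcBasis (ψ i) (hψ i) ρ b), matOf_baseChangeAlong] at h1
  rw [charpoly_eq_matOf ρ b, ← Matrix.charpoly_map, h1]
  simp

end Fermat.Agent.S59lib.RT.Fam
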