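/-
S59lib / RT / Fam / Cyc  (helper9) — Project I, brick JOIN-strict, part 2.

The local conditions `DetIsCyclotomic` and `IsStrictOrdinaryAt` contain CONGRUENCES `u − a v ∈ (p ^ n)`, one for every
exponent `a` by which `σ` acts on `μ_{p^n}`.  For a jointly injective family `ψ i : R → A i` the ideal
`p ^ n (∏ A i) ∩ R` is in general bigger than `p ^ n R`, so such congruences descend only under the SATURATION
hypothesis `Sat ψ p` (`∀ n, ∃ m, p ^ m (∏ A i) ∩ R ⊆ p ^ n R`), which holds when `R` and the `A i` are finite modules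
over a noetherian ring (`sat_of_finite`, Artin–Rees).

* `cycExp`, `CycAct` : the canonical exponents of `σ` on `μ_{p^n}` and their compatibility;
* `congr_of_family` : descent of a cyclotomic congruence;
* `detIsCyclotomic_of_family`;
* `sat_of_finite`.
-/
import Mathlib
import Fermat.Agent.S59lib.RT.Fam.Basic
import Fermat.Agent.S29lib.S30.CycloAdic

set_option autoImplicit false
set_option linter.unusedSectionVars false
set_option linter.style.haveILetI false

noncomputable section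

namespace Fermat.Agent.S59lib.RT.Fam

open IsLocalRing Fermat.Agent.TeamA.Rep Fermat.Agent.S29lib.S30

local notation "Qb" => AlgebraicClosure ℚ
local notation "GQ" => (AlgebraicClosure ℚ ≃ₐ[ℚ] AlgebraicClosure ℚ)

/-! ### The exponents of `σ` on the `p`-power roots of unity -/

section Exp

variable (p : ℕ)

/-- `σ` acts on `μ_{p^n}` by `μ ↦ μ ^ a` -/
def CycAct (σ : GQ) (n a : ℕ) : Prop := ∀ μ : Qb, μ ^ p ^ n = 1 → σ μ = μ ^ a

variable {p}

theorem CycAct.modEq (hp : p.Prime) {σ : GQ} {n a a' : ℕ} (h : CycAct p σ n a) (h' : CycAct p σ n a') :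
    a ≡ a' [MOD p ^ n] := by
  haveI : NeZero (p ^ n) := ⟨pow_ne_zero n hp.ne_zero⟩
  obtain ⟨ζ, hζ⟩ := HasEnoughRootsOfUnity.exists_primitiveRoot Qb (p ^ n)
  have h1 : ζ ^ a = ζ ^ a' := by rw [← h ζ hζ.pow_eq_one, ← h' ζ hζ.pow_eq_one]
  obtain ⟨u, rfl⟩ := hζ.isUnit (NeZero.ne (p ^ n))
  have hu : IsPrimitiveRoot u (p ^ n) := IsPrimitiveRoot.coe_units_iff.mp hζ
  have h2 : u ^ a = u ^ a' := Units.ext (by simpa using h1)
  rw [pow_eq_pow_iff_modEq, ← hu.eq_orderOf] at h2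
  exact h2

theorem CycAct.of_le {σ : GQ} {n m a : ℕ} (hnm : n ≤ m) (h : CycAct p σ m a) : CycAct p σ n a := by
  intro μ hμ
  refine h μ ?_
  obtain ⟨d, rfl⟩ := Nat.exists_eq_add_of_le hnm
  rw [pow_add, pow_mul, hμ, one_pow]

variable (p) [hpf : Fact p.Prime]

/-- the canonical exponent of `σ` on `μ_{p^n}` (the reduction of the `p`-adic cyclotomic character) -/
def cycExp (σ : GQ) (n : ℕ) : ℕ := (PadicInt.toZModPow n ((chiZp p σ : ℤ_[p]ˣ) : ℤ_[p])).val

theorem cycAct_cycExp (σ : GQ) (n : ℕ) : CycAct p σ n (cycExp p σ n) := fun _ hμ => chiZp_spec p σ hμ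

end Exp

/-! ### Saturation and the descent of cyclotomic congruences -/

variable {R : Type} [CommRing R] [IsLocalRing R] {ι : Type} {A : ι → Type} [∀ i, CommRing (A i)]
  [∀ i, IsLocalRing (A i)] (ψ : ∀ i, R →+* A i) (hψ : ∀ i, IsLocalHom (ψ i))

/-- **saturation at `p`** of the family `ψ` -/
def Sat (p : ℕ) : Prop :=
  ∀ n : ℕ, ∃ m : ℕ, ∀ x : R, (∀ i, ψ i x ∈ Ideal.span {((p ^ m : ℕ) : A i)}) →
    x ∈ Ideal.span {((p ^ n : ℕ) : R)}

variable {ψ}

theorem natCast_sub_mem_of_modEq {B : Type*} [CommRing B] {a a' N : ℕ} (h : a ≡ a' [MOD N]) :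
    (a : B) - (a' : B) ∈ Ideal.span {((N : ℕ) : B)} := by
  obtain ⟨c, hc⟩ := (Nat.modEq_iff_dvd.mp h.symm)
  rw [Ideal.mem_span_singleton]
  refine ⟨(c : B), ?_⟩
  have := congrArg (fun z : ℤ => (z : B)) hc
  simpa using this

/-- **descent of a cyclotomic congruence** along a saturated family -/
theorem congr_of_family {p : ℕ} [hpf : Fact p.Prime] (hsat : Sat ψ p) (σ : GQ) (u v : R)
    (h : ∀ i (n a : ℕ), CycAct p σ n a →
      ψ i u - (a : A i) * ψ i v ∈ Ideal.span {((p ^ n : ℕ) : A i)}) (n a : ℕ) (ha : CycAct p σ n a) :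
    u - (a : R) * v ∈ Ideal.span {((p ^ n : ℕ) : R)} := by
  obtain ⟨m, hm⟩ := hsat n
  set m' := max m n with hm'
  set a' := cycExp p σ m' with ha'
  have h1 : u - (a' : R) * v ∈ Ideal.span {((p ^ n : ℕ) : R)} := by
    refine hm _ fun i => ?_
    have h2 := h i m' a' (cycAct_cycExp p σ m')
    have h3 : Ideal.span {((p ^ m' : ℕ) : A i)} ≤ Ideal.span {((p ^ m : ℕ) : A i)} := by
      rw [Ideal.span_singleton_le_span_singleton]
      exact Nat.cast_dvd_cast (pow_dvd_pow p (le_max_left m n))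
    rw [map_sub, map_mul, map_natCast]
    exact h3 h2
  have h4 : a' ≡ a [MOD p ^ n] :=
    ((cycAct_cycExp p σ m').of_le (le_max_right m n)).modEq hpf.out ha
  have h5 := natCast_sub_mem_of_modEq (B := R) h4
  have h6 : u - (a : R) * v = (u - (a' : R) * v) + ((a' : R) - (a : R)) * v := by ring
  rw [h6]
  exact Ideal.add_mem _ h1 (Ideal.mul_mem_right _ _ h5)

variable (ρ : GaloisRepAdic R)

theorem natCast_mem_maximalIdeal_of_map {B : Type*} [CommRing B] [IsLocalRing B] (f : R →+* B) {p : ℕ}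
    (h : (p : B) ∈ maximalIdeal B) : (p : R) ∈ maximalIdeal R := by
  rw [mem_maximalIdeal, mem_nonunits_iff] at h ⊢
  intro hu
  apply h
  have := hu.map f
  rwa [map_natCast] at this

theorem det_baseChangeAlong (i : ι) (σ : GQ) :
    LinearMap.det ((ρ.baseChangeAlong (ψ i) (hψ i)).ρ σ) = ψ i (LinearMap.det (ρ.ρ σ)) := by
  letI : Algebra R (A i) := (ψ i).toAlgebra
  exact LinearMap.det_baseChange (ρ.ρ σ)

/-- **the cyclotomic determinant descends along a saturated jointly injective family** -/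
theorem detIsCyclotomic_of_family [Nonempty ι] {p : ℕ} [hpf : Fact p.Prime] (hsat : Sat ψ p)
    (h : ∀ i, (ρ.baseChangeAlong (ψ i) (hψ i)).DetIsCyclotomic p) : ρ.DetIsCyclotomic p := by
  obtain ⟨i₀⟩ := ‹Nonempty ι›
  refine ⟨natCast_mem_maximalIdeal_of_map (ψ i₀) (h i₀).1, fun n σ a ha => ?_⟩
  have := congr_of_family hsat σ (LinearMap.det (ρ.ρ σ)) 1 (fun i n a ha => by
    have h1 := (h i).2 n σ a ha
    rw [det_baseChangeAlong] at h1
    rwa [map_one, mul_one]) n a ha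
  rwa [mul_one] at this

/-! ### Saturation from finiteness (Artin–Rees) -/

section Finite

variable {𝒪 : Type*} [CommRing 𝒪] [IsNoetherianRing 𝒪] [Algebra 𝒪 R] [∀ i, Algebra 𝒪 (A i)] [Finite ι]
  [∀ i, Module.Finite 𝒪 (A i)]

omit [IsLocalRing R] [∀ i, IsLocalRing (A i)] in
/-- **saturation of a jointly injective family of finite algebras over a noetherian ring** -/
theorem sat_of_finite (φ : ∀ i, R →ₐ[𝒪] A i)
    (hinj : ∀ x : R, (∀ i, φ i x = 0) → x = 0) (p : ℕ) :
    ∀ n : ℕ, ∃ m : ℕ, ∀ x : R, (∀ i, φ i x ∈ Ideal.span {((p ^ m : ℕ) : A i)}) →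
      x ∈ Ideal.span {((p ^ n : ℕ) : R)} := by
  classical
  let f : R →ₗ[𝒪] (∀ i, A i) := LinearMap.pi fun i => (φ i).toLinearMap
  let N : Submodule 𝒪 (∀ i, A i) := LinearMap.range f
  let I : Ideal 𝒪 := Ideal.span {(p : 𝒪)}
  obtain ⟨k, hk⟩ := Ideal.exists_pow_inf_eq_pow_smul I N
  intro n
  refine ⟨n + k, fun x hx => ?_⟩
  -- the image of `x` lies in `I ^ (n + k) • ⊤ ⊓ N`
  have hIpow : ∀ j : ℕ, I ^ j = Ideal.span {((p : 𝒪)) ^ j} := fun j => Ideal.span_singleton_pow _ j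
  have h1 : f x ∈ I ^ (n + k) • (⊤ : Submodule 𝒪 (∀ i, A i)) ⊓ N := by
    refine ⟨?_, x, rfl⟩
    choose y hy using fun i => Ideal.mem_span_singleton'.mp (hx i)
    have h2 : f x = ((p : 𝒪) ^ (n + k)) • (fun i => y i) := by
      funext i
      show φ i x = ((p : 𝒪) ^ (n + k)) • y i
      rw [← hy i, Algebra.smul_def, map_pow, map_natCast, Nat.cast_pow, mul_comm]
    rw [h2]
    exact Submodule.smul_mem_smul (Ideal.pow_mem_pow (Ideal.mem_span_singleton_self _) _)
      Submodule.mem_top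
  rw [hk (n + k) (Nat.le_add_left k n), Nat.add_sub_cancel] at h1
  -- hence in `p ^ n • N`
  have h3 : f x ∈ I ^ n • N :=
    (show I ^ n • (I ^ k • (⊤ : Submodule 𝒪 (∀ i, A i)) ⊓ N) ≤ I ^ n • N from
      smul_mono_right (I ^ n) inf_le_right) h1
  rw [hIpow, Submodule.ideal_span_singleton_smul] at h3
  obtain ⟨_, ⟨y, rfl⟩, hy⟩ := h3
  have h4 : x = ((p ^ n : ℕ) : R) * y := by
    rw [← sub_eq_zero]
    refine hinj _ fun i => ?_
    have := congrFun hy i
    rw [map_sub, sub_eq_zero, map_mul, map_natCast]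
    have h5 : (((p : 𝒪) ^ n) • f y) i = ((p ^ n : ℕ) : A i) * φ i y := by
      show ((p : 𝒪) ^ n) • φ i y = _
      rw [Algebra.smul_def, map_pow, map_natCast, Nat.cast_pow]
    rw [← h5]
    exact this.symm
  rw [h4]
  exact Ideal.mul_mem_right _ _ (Ideal.mem_span_singleton_self _)

end Finite

end Fermat.Agent.S59lib.RT.Fam
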