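/-
S59lib / RT / Fam / Line  (helper9) — Project I, brick JOIN-strict, part 3 (linear algebra).

Over a local ring `R`, an idempotent endomorphism `e` of trace one of a free module `V` of rank two has a range spanned
by the first vector of a basis (`exists_basis_range_eq_span`); the trace of an endomorphism which is upper triangular
in a basis (`trace_eq_add_of_upper`).
-/
import Mathlib

set_option autoImplicit false
set_option linter.unusedSectionVars false
set_option linter.style.haveILetI false

noncomputable section

namespace Fermat.Agent.S59lib.RT.Fam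

open IsLocalRing

variable {R : Type*} [CommRing R] {V : Type*} [AddCommGroup V] [Module R V]

/-! ### Coordinates in a basis indexed by `Fin 2` -/

theorem repr_zero_smul_add (b : Module.Basis (Fin 2) R V) (x y : R) :
    b.repr (x • b 0 + y • b 1) 0 = x := by
  simp [Finsupp.single_apply]

theorem repr_one_smul_add (b : Module.Basis (Fin 2) R V) (x y : R) :
    b.repr (x • b 0 + y • b 1) 1 = y := by
  simp [Finsupp.single_apply]

theorem repr_one_of_mem_span_zero (b : Module.Basis (Fin 2) R V) {v : V}
    (hv : v ∈ Submodule.span R {b 0}) : b.repr v 1 = 0 := by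
  obtain ⟨c, rfl⟩ := Submodule.mem_span_singleton.mp hv
  simp [Finsupp.single_apply]

theorem eq_smul_add_smul (b : Module.Basis (Fin 2) R V) (v : V) :
    v = b.repr v 0 • b 0 + b.repr v 1 • b 1 := by
  conv_lhs => rw [← b.sum_repr v]
  rw [Fin.sum_univ_two]

/-- the trace of an endomorphism which is upper triangular in the basis `b` -/
theorem trace_eq_add_of_upper (b : Module.Basis (Fin 2) R V) (f : Module.End R V) {x z : R}
    (h0 : f (b 0) = x • b 0) (h1 : f (b 1) - z • b 1 ∈ Submodule.span R {b 0}) :
    LinearMap.trace R V f = x + z := by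
  rw [LinearMap.trace_eq_matrix_trace R b f, Matrix.trace_fin_two, LinearMap.toMatrix_apply,
    LinearMap.toMatrix_apply, h0]
  have h2 := repr_one_of_mem_span_zero b h1
  rw [map_sub, Finsupp.sub_apply, sub_eq_zero] at h2
  rw [h2]
  simp [Finsupp.single_apply]

/-! ### Idempotents of trace one -/

variable [IsLocalRing R]

/-- the case where the upper left coefficient of the idempotent is a unit -/
theorem exists_basis_range_eq_span_aux (b : Module.Basis (Fin 2) R V) (e : Module.End R V)
    (he : e * e = e) (htr : LinearMap.trace R V e = 1)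
    (hu : IsUnit (LinearMap.toMatrix b b e 0 0)) :
    ∃ b' : Module.Basis (Fin 2) R V, LinearMap.range e = Submodule.span R {b' 0} := by
  classical
  set E := LinearMap.toMatrix b b e with hE
  have hEE : E * E = E := by rw [hE, ← LinearMap.toMatrix_mul, he]
  have htrE : E 0 0 + E 1 1 = 1 := by
    rw [← Matrix.trace_fin_two, hE, ← LinearMap.trace_eq_matrix_trace R b e, htr]
  have h00 : E 0 0 * E 0 0 + E 0 1 * E 1 0 = E 0 0 := by
    have := congrFun (congrFun hEE 0) 0
    rwa [Matrix.mul_apply, Fin.sum_univ_two] at this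
  -- `det E = 0`
  have hdet : E 0 0 * E 1 1 = E 0 1 * E 1 0 := by
    have h11 : E 1 1 = 1 - E 0 0 := by rw [← htrE]; ring
    rw [h11]
    linear_combination -h00
  obtain ⟨α, hα⟩ := hu
  -- the new basis
  let Pm : Matrix (Fin 2) (Fin 2) R := !![E 0 0, 0; E 1 0, 1]
  have hPdet : IsUnit (LinearMap.toMatrix b b (Matrix.toLin b b Pm)).det := by
    rw [LinearMap.toMatrix_toLin, Matrix.det_fin_two]
    simp only [Pm, Matrix.of_apply, Matrix.cons_val', Matrix.cons_val_zero, Matrix.cons_val_one,
      Matrix.cons_val_fin_one]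
    rw [mul_one, zero_mul, sub_zero, ← hα]
    exact α.isUnit
  let eq := LinearEquiv.ofIsUnitDet hPdet
  let b' : Module.Basis (Fin 2) R V := b.map eq
  have hb'0 : b' 0 = E 0 0 • b 0 + E 1 0 • b 1 := by
    show eq (b 0) = _
    show Matrix.toLin b b Pm (b 0) = _
    rw [Matrix.toLin_self, Fin.sum_univ_two]
    simp [Pm]
  have he0 : e (b 0) = E 0 0 • b 0 + E 1 0 • b 1 := by
    conv_lhs => rw [eq_smul_add_smul b (e (b 0))]
    rw [hE, LinearMap.toMatrix_apply, LinearMap.toMatrix_apply]
  have he1 : e (b 1) = E 0 1 • b 0 + E 1 1 • b 1 := by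
    conv_lhs => rw [eq_smul_add_smul b (e (b 1))]
    rw [hE, LinearMap.toMatrix_apply, LinearMap.toMatrix_apply]
  have he1' : e (b 1) = ((α⁻¹ : Rˣ) : R) • E 0 1 • e (b 0) := by
    rw [he1, he0, smul_add, smul_add, smul_smul, smul_smul, smul_smul, smul_smul]
    have h1 : ((α⁻¹ : Rˣ) : R) * E 0 1 * E 0 0 = E 0 1 := by
      rw [← hα]
      have := α.inv_mul
      linear_combination E 0 1 * this
    have h2 : ((α⁻¹ : Rˣ) : R) * E 0 1 * E 1 0 = E 1 1 := by
      rw [mul_assoc, ← hdet, ← hα]
      have := α.inv_mul
      linear_combination E 1 1 * this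
    rw [h1, h2]
  refine ⟨b', ?_⟩
  rw [hb'0, ← he0]
  apply le_antisymm
  · rintro _ ⟨v, rfl⟩
    rw [eq_smul_add_smul b v, map_add, map_smul, map_smul, he1']
    refine Submodule.add_mem _ (Submodule.smul_mem _ _ (Submodule.mem_span_singleton_self _)) ?_
    exact Submodule.smul_mem _ _ (Submodule.smul_mem _ _ (Submodule.smul_mem _ _
      (Submodule.mem_span_singleton_self _)))
  · rw [Submodule.span_singleton_le_iff_mem]
    exact ⟨b 0, rfl⟩

/-- **an idempotent of trace one on a free module of rank two over a local ring** has its range spanned by the first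
vector of a basis -/
theorem exists_basis_range_eq_span (b : Module.Basis (Fin 2) R V) (e : Module.End R V)
    (he : e * e = e) (htr : LinearMap.trace R V e = 1) :
    ∃ b' : Module.Basis (Fin 2) R V, LinearMap.range e = Submodule.span R {b' 0} := by
  have htrE : LinearMap.toMatrix b b e 0 0 + LinearMap.toMatrix b b e 1 1 = 1 := by
    rw [← Matrix.trace_fin_two, ← LinearMap.trace_eq_matrix_trace R b e, htr]
  rcases IsLocalRing.isUnit_or_isUnit_of_add_one htrE with hu | hu
  · exact exists_basis_range_eq_span_aux b e he htr hu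
  · refine exists_basis_range_eq_span_aux (b.reindex (Equiv.swap 0 1)) e he htr ?_
    rw [LinearMap.toMatrix_apply, Module.Basis.reindex_apply, Module.Basis.repr_reindex_apply]
    rw [LinearMap.toMatrix_apply] at hu
    simpa using hu

end Fermat.Agent.S59lib.RT.Fam
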