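/-
S59lib / RT / Fam / Strict  (helper9) — Project I, brick JOIN-strict, part 4.

**Strict ordinarity descends along a saturated jointly injective family of local homomorphisms** (`p` odd).

The line of a strictly ordinary representation is canonical: for `σ₀` in the inertia group at `P ∣ p` moving `ζ_p`, with
`N := ρ σ₀ − 1` and `t := tr ρ σ₀ − 2` (a unit), it is the range of the idempotent `e := t⁻¹ N`.  All the conditions of
`IsStrictOrdinaryAt` become polynomial EQUATIONS in `ρ σ₀`, `ρ σ` and traces (`StrictEqs`), plus the cyclotomic congruence,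
so they descend (`JointlyInjective`, `Sat`).

* `strictEqs_of_isStrictOrdinaryAt`, `isUnit_tt`;
* `StrictEqs.of_family`;
* `StrictEqs.exists_line`;
* **`isStrictOrdinaryAt_of_family`**, `isOrdinaryAt_of_family`.
-/
import Mathlib
import Fermat.Agent.S59lib.RT.Fam.Cyc
import Fermat.Agent.S59lib.RT.Fam.Line
import Fermat.Agent.S56lib.Tame.CycloInertia
import Fermat.Agent.S33lib.TLevel.Det
import Fermat.Prelude.Def_GaloisRep_StrictOrdinary

set_option autoImplicit false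
set_option linter.unusedSectionVars false
set_option linter.style.haveILetI false

noncomputable section

namespace Fermat.Agent.S59lib.RT.Fam

open IsLocalRing Fermat.Agent.TeamA.Rep

open scoped TensorProduct

local notation "Qb" => AlgebraicClosure ℚ
local notation "GQ" => (AlgebraicClosure ℚ ≃ₐ[ℚ] AlgebraicClosure ℚ)

theorem mem_decomposition_of_mem_inertia {P : ValuationSubring Qb} {σ : GQ}
    (h : σ ∈ P.inertiaSubgroupIn ℚ) : σ ∈ P.decompositionSubgroup ℚ := by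
  obtain ⟨τ, -, rfl⟩ := Subgroup.mem_map.mp h
  exact τ.2

section Eqs

variable {B : Type} [CommRing B] [IsLocalRing B]

/-- `tr ρ σ₀ − 2` -/
def tt (ρ : GaloisRepAdic B) (σ₀ : GQ) : B := LinearMap.trace B ρ.V (ρ.ρ σ₀) - 2

/-- `ρ σ₀ − 1` -/
def NN (ρ : GaloisRepAdic B) (σ₀ : GQ) : Module.End B ρ.V := ρ.ρ σ₀ - 1

/-- the trace of `ρ σ ∘ (ρ σ₀ − 1)` -/
def TT (ρ : GaloisRepAdic B) (σ₀ σ : GQ) : B := LinearMap.trace B ρ.V (ρ.ρ σ * NN ρ σ₀)

/-- **the equational form of strict ordinarity at the place `P`**, relative to `σ₀` -/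
structure StrictEqs (P : ValuationSubring Qb) (p : ℕ) (ρ : GaloisRepAdic B) (σ₀ : GQ) : Prop where
  sq : NN ρ σ₀ * NN ρ σ₀ - tt ρ σ₀ • NN ρ σ₀ = 0
  stab : ∀ σ ∈ P.decompositionSubgroup ℚ, (tt ρ σ₀ • 1 - NN ρ σ₀) * ρ.ρ σ * NN ρ σ₀ = 0
  triv : ∀ σ ∈ P.inertiaSubgroupIn ℚ, (tt ρ σ₀ • 1 - NN ρ σ₀) * (ρ.ρ σ - 1) = 0
  scalL : ∀ σ ∈ P.decompositionSubgroup ℚ,
    tt ρ σ₀ • (ρ.ρ σ * NN ρ σ₀) - TT ρ σ₀ σ • NN ρ σ₀ = 0
  scalQ : ∀ σ ∈ P.decompositionSubgroup ℚ, (tt ρ σ₀ • 1 - NN ρ σ₀) *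
    (tt ρ σ₀ • ρ.ρ σ - (tt ρ σ₀ * LinearMap.trace B ρ.V (ρ.ρ σ) - TT ρ σ₀ σ) • 1) = 0
  congr : ∀ σ ∈ P.decompositionSubgroup ℚ, ∀ n a : ℕ, CycAct p σ n a →
    TT ρ σ₀ σ - (a : B) * (tt ρ σ₀ * LinearMap.trace B ρ.V (ρ.ρ σ) - TT ρ σ₀ σ) ∈
      Ideal.span {((p ^ n : ℕ) : B)}

/-- **the equations hold for a strictly ordinary representation**, and `t = x₀ − 1` with `x₀ ≡ χ(σ₀)`. -/
theorem strictEqs_of_line {P : ValuationSubring Qb} {p : ℕ} {ρ : GaloisRepAdic B}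
    (b : Module.Basis (Fin 2) B ρ.V)
    (hD : ∀ σ ∈ P.decompositionSubgroup ℚ, ∀ v ∈ Submodule.span B {b 0},
      ρ.ρ σ v ∈ Submodule.span B {b 0})
    (hI : ∀ σ ∈ P.inertiaSubgroupIn ℚ, ∀ v : ρ.V, ρ.ρ σ v - v ∈ Submodule.span B {b 0})
    (hsc : ∀ σ ∈ P.decompositionSubgroup ℚ, ∃ x z : B,
      (∀ w ∈ Submodule.span B {b 0}, ρ.ρ σ w = x • w) ∧
      (∀ v : ρ.V, ρ.ρ σ v - z • v ∈ Submodule.span B {b 0}) ∧
      ∀ (n a : ℕ), (∀ μ : AlgebraicClosure ℚ, μ ^ p ^ n = 1 → σ μ = μ ^ a) →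
        x - (a : B) * z ∈ Ideal.span {((p ^ n : ℕ) : B)})
    {σ₀ : GQ} (hσ₀ : σ₀ ∈ P.inertiaSubgroupIn ℚ) :
    StrictEqs P p ρ σ₀ ∧ ∃ x₀ : B, tt ρ σ₀ = x₀ - 1 ∧
      ∀ n a : ℕ, CycAct p σ₀ n a → x₀ - (a : B) ∈ Ideal.span {((p ^ n : ℕ) : B)} := by
  set L := Submodule.span B {b 0} with hL
  have hb0 : b 0 ∈ L := Submodule.mem_span_singleton_self _
  obtain ⟨x₀, z₀, hx₀, hz₀, hc₀⟩ := hsc σ₀ (mem_decomposition_of_mem_inertia hσ₀)
  -- `z₀ = 1`
  have hz1 : z₀ = 1 := by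
    have h1 : (1 - z₀) • b 1 ∈ L := by
      have := L.sub_mem (hz₀ (b 1)) (hI σ₀ hσ₀ (b 1))
      have h2 : ρ.ρ σ₀ (b 1) - z₀ • b 1 - (ρ.ρ σ₀ (b 1) - b 1) = (1 - z₀) • b 1 := by module
      rwa [h2] at this
    have h3 := repr_one_of_mem_span_zero b h1
    rw [map_smul, Module.Basis.repr_self, Finsupp.smul_apply, Finsupp.single_apply, if_pos rfl,
      smul_eq_mul, mul_one, sub_eq_zero] at h3
    exact h3.symm
  have ht : tt ρ σ₀ = x₀ - 1 := by
    unfold tt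
    rw [trace_eq_add_of_upper b (ρ.ρ σ₀) (hx₀ _ hb0) (by rw [one_smul]; exact hI σ₀ hσ₀ (b 1))]
    ring
  -- the basic facts on `N`
  have f1 : ∀ v, NN ρ σ₀ v ∈ L := fun v => hI σ₀ hσ₀ v
  have f2 : ∀ w ∈ L, NN ρ σ₀ w = tt ρ σ₀ • w := by
    intro w hw
    show ρ.ρ σ₀ w - w = _
    rw [hx₀ w hw, ht, sub_smul, one_smul]
  have f4 : ∀ w ∈ L, (tt ρ σ₀ • (1 : Module.End B ρ.V) - NN ρ σ₀) w = 0 := by
    intro w hw
    rw [LinearMap.sub_apply, LinearMap.smul_apply, Module.End.one_apply, f2 w hw, sub_self]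
  -- the traces at `σ ∈ D`
  have g1 : ∀ σ (x z : B), (∀ w ∈ L, ρ.ρ σ w = x • w) → (∀ v : ρ.V, ρ.ρ σ v - z • v ∈ L) →
      LinearMap.trace B ρ.V (ρ.ρ σ) = x + z := fun σ x z hx hz =>
    trace_eq_add_of_upper b (ρ.ρ σ) (hx _ hb0) (hz (b 1))
  have g2 : ∀ σ ∈ P.decompositionSubgroup ℚ, ∀ (x : B), (∀ w ∈ L, ρ.ρ σ w = x • w) →
      TT ρ σ₀ σ = tt ρ σ₀ * x := by
    intro σ hσ x hx
    unfold TT
    rw [trace_eq_add_of_upper b (ρ.ρ σ * NN ρ σ₀) (x := tt ρ σ₀ * x) (z := 0), add_zero]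
    · rw [Module.End.mul_apply, f2 _ hb0, map_smul, hx _ hb0, smul_smul]
    · rw [zero_smul, sub_zero, Module.End.mul_apply]
      exact hD σ hσ _ (f1 _)
  refine ⟨⟨?_, ?_, ?_, ?_, ?_, ?_⟩, x₀, ht, ?_⟩
  · -- sq
    refine LinearMap.ext fun v => ?_
    rw [LinearMap.sub_apply, Module.End.mul_apply, f2 _ (f1 v), LinearMap.smul_apply, sub_self,
      LinearMap.zero_apply]
  · -- stab
    intro σ hσ
    refine LinearMap.ext fun v => ?_
    rw [Module.End.mul_apply, Module.End.mul_apply, LinearMap.zero_apply]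
    exact f4 _ (hD σ hσ _ (f1 v))
  · -- triv
    intro σ hσ
    refine LinearMap.ext fun v => ?_
    have h1 : (ρ.ρ σ - 1) v = ρ.ρ σ v - v := by rw [LinearMap.sub_apply, Module.End.one_apply]
    rw [Module.End.mul_apply, LinearMap.zero_apply, h1]
    exact f4 _ (hI σ hσ v)
  · -- scalL
    intro σ hσ
    obtain ⟨x, z, hx, hz, -⟩ := hsc σ hσ
    refine LinearMap.ext fun v => ?_
    rw [LinearMap.sub_apply, LinearMap.smul_apply, LinearMap.smul_apply, Module.End.mul_apply,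
      hx _ (f1 v), g2 σ hσ x hx, smul_smul, sub_self, LinearMap.zero_apply]
  · -- scalQ
    intro σ hσ
    obtain ⟨x, z, hx, hz, -⟩ := hsc σ hσ
    refine LinearMap.ext fun v => ?_
    rw [Module.End.mul_apply, LinearMap.zero_apply, g1 σ x z hx hz, g2 σ hσ x hx]
    have h1 : (tt ρ σ₀ • ρ.ρ σ - (tt ρ σ₀ * (x + z) - tt ρ σ₀ * x) • (1 : Module.End B ρ.V)) v
        = tt ρ σ₀ • (ρ.ρ σ v - z • v) := by
      rw [LinearMap.sub_apply, LinearMap.smul_apply, LinearMap.smul_apply, Module.End.one_apply]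
      module
    rw [h1]
    exact f4 _ (L.smul_mem _ (hz v))
  · -- congr
    intro σ hσ n a ha
    obtain ⟨x, z, hx, hz, hc⟩ := hsc σ hσ
    rw [g1 σ x z hx hz, g2 σ hσ x hx]
    have h1 : tt ρ σ₀ * x - (a : B) * (tt ρ σ₀ * (x + z) - tt ρ σ₀ * x)
        = tt ρ σ₀ * (x - (a : B) * z) := by ring
    rw [h1]
    exact Ideal.mul_mem_left _ _ (hc n a ha)
  · intro n a ha
    have := hc₀ n a ha
    rwa [hz1, mul_one] at this

theorem strictEqs_of_isStrictOrdinaryAt {P : ValuationSubring Qb} {p : ℕ} {ρ : GaloisRepAdic B}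
    (h : ρ.IsStrictOrdinaryAt p) (hP : P.LiesOverPrime p) {σ₀ : GQ}
    (hσ₀ : σ₀ ∈ P.inertiaSubgroupIn ℚ) :
    StrictEqs P p ρ σ₀ ∧ ∃ x₀ : B, tt ρ σ₀ = x₀ - 1 ∧
      ∀ n a : ℕ, CycAct p σ₀ n a → x₀ - (a : B) ∈ Ideal.span {((p ^ n : ℕ) : B)} := by
  obtain ⟨L, ⟨b, rfl⟩, hD, hI, hsc⟩ := h.2 P hP
  exact strictEqs_of_line b hD hI hsc hσ₀

/-- `t = tr ρ σ₀ − 2` is a unit when `σ₀` moves a primitive `p`-th root of unity -/
theorem isUnit_tt {P : ValuationSubring Qb} {p : ℕ} [hpf : Fact p.Prime] {ρ : GaloisRepAdic B}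
    (h : ρ.IsStrictOrdinaryAt p) (hP : P.LiesOverPrime p) {σ₀ : GQ}
    (hσ₀ : σ₀ ∈ P.inertiaSubgroupIn ℚ) {ζ : Qb} (hζ : IsPrimitiveRoot ζ p) (hne : σ₀ ζ ≠ ζ) :
    IsUnit (tt ρ σ₀) := by
  obtain ⟨-, x₀, ht, hc⟩ := strictEqs_of_isStrictOrdinaryAt h hP hσ₀
  set a := cycExp p σ₀ 1 with ha
  have hact : CycAct p σ₀ 1 a := cycAct_cycExp p σ₀ 1
  have h1 := hc 1 a hact
  by_contra hnu
  have hmem : tt ρ σ₀ ∈ maximalIdeal B := hnu
  have hpB : ((p ^ 1 : ℕ) : B) ∈ maximalIdeal B := by rw [pow_one]; exact h.1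
  have h2 : x₀ - (a : B) ∈ maximalIdeal B :=
    (Ideal.span_singleton_le_iff_mem (I := maximalIdeal B)).mpr hpB h1
  have h3 : (((a : ℤ) - 1 : ℤ) : B) ∈ maximalIdeal B := by
    have := Ideal.sub_mem _ hmem h2
    have hcalc : tt ρ σ₀ - (x₀ - (a : B)) = (((a : ℤ) - 1 : ℤ) : B) := by
      rw [ht]; push_cast; ring
    rwa [hcalc] at this
  obtain ⟨c, hc'⟩ := Fermat.Agent.S33lib.TLevel.dvd_of_intCast_mem_maximalIdeal hpf.out h.1 h3
  apply hne
  have hζp : ζ ^ p ^ 1 = 1 := by rw [pow_one]; exact hζ.pow_eq_one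
  rw [hact ζ hζp]
  have hζu : IsUnit ζ := IsUnit.of_pow_eq_one hζ.pow_eq_one hpf.out.ne_zero
  obtain ⟨u, rfl⟩ := hζu
  have hup : u ^ (p : ℤ) = 1 := by
    rw [zpow_natCast]
    exact Units.ext (by simpa using hζ.pow_eq_one)
  have hz : u ^ ((a : ℤ)) = u := by
    have ha' : (a : ℤ) = 1 + (p : ℤ) * c := by linarith
    rw [ha', zpow_add, zpow_one, zpow_mul, hup, one_zpow, mul_one]
  have := congrArg (fun w : Qbˣ => (w : Qb)) hz
  simpa using this

end Eqs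

/-! ### The transfer of the equations -/

section Transfer

variable {R : Type} [CommRing R] [IsLocalRing R] {ι : Type} {A : ι → Type} [∀ i, CommRing (A i)]
  [∀ i, IsLocalRing (A i)] {ψ : ∀ i, R →+* A i} (hψ : ∀ i, IsLocalHom (ψ i)) (ρ : GaloisRepAdic R)

/-- base change of endomorphisms along `ψ i`, as a ring homomorphism -/
def bcEnd (i : ι) : Module.End R ρ.V →+* Module.End (A i) (ρ.baseChangeAlong (ψ i) (hψ i)).V :=
  letI : Algebra R (A i) := (ψ i).toAlgebra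
  (Module.End.baseChangeHom R (A i) ρ.V : Module.End R ρ.V →+* Module.End (A i) (A i ⊗[R] ρ.V))

theorem bcEnd_ρ (i : ι) (σ : GQ) : bcEnd hψ ρ i (ρ.ρ σ) = (ρ.baseChangeAlong (ψ i) (hψ i)).ρ σ := rfl

theorem bcEnd_smul (i : ι) (r : R) (f : Module.End R ρ.V) :
    bcEnd hψ ρ i (r • f) = ψ i r • bcEnd hψ ρ i f := by
  letI : Algebra R (A i) := (ψ i).toAlgebra
  show (r • f).baseChange (A i) = ψ i r • f.baseChange (A i)
  rw [LinearMap.baseChange_smul]
  exact (algebraMap_smul (A i) r (f.baseChange (A i))).symm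

theorem trace_bcEnd (i : ι) (f : Module.End R ρ.V) :
    LinearMap.trace (A i) (ρ.baseChangeAlong (ψ i) (hψ i)).V (bcEnd hψ ρ i f) =
      ψ i (LinearMap.trace R ρ.V f) := by
  letI : Algebra R (A i) := (ψ i).toAlgebra
  exact LinearMap.trace_baseChange f (A i)

theorem toMatrix_bcEnd (i : ι) (b : Module.Basis (Fin 2) R ρ.V) (f : Module.End R ρ.V) :
    LinearMap.toMatrix (bcBasis (ψ i) (hψ i) ρ b) (bcBasis (ψ i) (hψ i) ρ b) (bcEnd hψ ρ i f) =
      (LinearMap.toMatrix b b f).map (ψ i) := by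
  letI : Algebra R (A i) := (ψ i).toAlgebra
  exact LinearMap.toMatrix_baseChange (A i) f b b

theorem eq_zero_of_bcEnd (hinj : JointlyInjective ψ) {f : Module.End R ρ.V}
    (h : ∀ i, bcEnd hψ ρ i f = 0) : f = 0 := by
  let b : Module.Basis (Fin 2) R ρ.V := Module.finBasisOfFinrankEq R ρ.V ρ.finrank_eq
  apply (LinearMap.toMatrix b b).injective
  rw [map_zero]
  refine hinj.matrix_eq fun i => ?_
  rw [← toMatrix_bcEnd hψ ρ i b f, h i, map_zero, Matrix.map_zero _ (map_zero _)]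

theorem bcEnd_NN (i : ι) (σ₀ : GQ) :
    bcEnd hψ ρ i (NN ρ σ₀) = NN (ρ.baseChangeAlong (ψ i) (hψ i)) σ₀ := by
  unfold NN
  rw [map_sub, map_one, bcEnd_ρ]

theorem map_tt (i : ι) (σ₀ : GQ) : ψ i (tt ρ σ₀) = tt (ρ.baseChangeAlong (ψ i) (hψ i)) σ₀ := by
  unfold tt
  rw [map_sub, ← trace_bcEnd hψ ρ i, bcEnd_ρ, map_ofNat]

theorem map_trace (i : ι) (σ : GQ) : ψ i (LinearMap.trace R ρ.V (ρ.ρ σ)) =
    LinearMap.trace (A i) (ρ.baseChangeAlong (ψ i) (hψ i)).V ((ρ.baseChangeAlong (ψ i) (hψ i)).ρ σ) := by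
  rw [← trace_bcEnd hψ ρ i, bcEnd_ρ]

theorem map_TT (i : ι) (σ₀ σ : GQ) :
    ψ i (TT ρ σ₀ σ) = TT (ρ.baseChangeAlong (ψ i) (hψ i)) σ₀ σ := by
  unfold TT
  rw [← trace_bcEnd hψ ρ i, map_mul, bcEnd_ρ, bcEnd_NN]

/-- **the equations descend along a saturated jointly injective family** -/
theorem StrictEqs.of_family (hinj : JointlyInjective ψ) {p : ℕ} [hpf : Fact p.Prime] (hsat : Sat ψ p)
    {P : ValuationSubring Qb} {σ₀ : GQ}
    (h : ∀ i, StrictEqs P p (ρ.baseChangeAlong (ψ i) (hψ i)) σ₀) : StrictEqs P p ρ σ₀ := by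
  refine ⟨?_, ?_, ?_, ?_, ?_, ?_⟩
  · refine eq_zero_of_bcEnd hψ ρ hinj fun i => ?_
    rw [map_sub, map_mul, bcEnd_smul, bcEnd_NN, map_tt]
    exact (h i).sq
  · intro σ hσ
    refine eq_zero_of_bcEnd hψ ρ hinj fun i => ?_
    rw [map_mul, map_mul, map_sub, bcEnd_smul, map_one, bcEnd_NN, map_tt, bcEnd_ρ]
    exact (h i).stab σ hσ
  · intro σ hσ
    refine eq_zero_of_bcEnd hψ ρ hinj fun i => ?_
    rw [map_mul, map_sub, map_sub, bcEnd_smul, map_one, bcEnd_NN, map_tt, bcEnd_ρ]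
    exact (h i).triv σ hσ
  · intro σ hσ
    refine eq_zero_of_bcEnd hψ ρ hinj fun i => ?_
    rw [map_sub, bcEnd_smul, bcEnd_smul, map_mul, bcEnd_NN, map_tt, map_TT, bcEnd_ρ]
    exact (h i).scalL σ hσ
  · intro σ hσ
    refine eq_zero_of_bcEnd hψ ρ hinj fun i => ?_
    rw [map_mul, map_sub, map_sub, bcEnd_smul, bcEnd_smul, bcEnd_smul, map_one, bcEnd_NN, map_tt,
      bcEnd_ρ, map_sub, map_mul, map_tt, map_TT, map_trace]
    exact (h i).scalQ σ hσ
  · intro σ hσ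
    refine congr_of_family hsat σ (TT ρ σ₀ σ)
      (tt ρ σ₀ * LinearMap.trace R ρ.V (ρ.ρ σ) - TT ρ σ₀ σ) fun i n a ha => ?_
    rw [map_sub, map_mul, map_tt hψ, map_TT hψ, map_trace hψ]
    exact (h i).congr σ hσ n a ha

end Transfer

/-! ### From the equations back to a line -/

section Line

variable {R : Type} [CommRing R] [IsLocalRing R] {ρ : GaloisRepAdic R}

/-- **the line of a solution of the equations with `t` a unit** -/
theorem StrictEqs.exists_line {P : ValuationSubring Qb} {p : ℕ} {σ₀ : GQ} (h : StrictEqs P p ρ σ₀)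
    (hu : IsUnit (tt ρ σ₀)) :
    ∃ L : Submodule R ρ.V,
      (∃ b : Module.Basis (Fin 2) R ρ.V, L = Submodule.span R {b 0}) ∧
      (∀ σ ∈ P.decompositionSubgroup ℚ, ∀ v ∈ L, ρ.ρ σ v ∈ L) ∧
      (∀ σ ∈ P.inertiaSubgroupIn ℚ, ∀ v : ρ.V, ρ.ρ σ v - v ∈ L) ∧
      (∀ σ ∈ P.decompositionSubgroup ℚ, ∃ x z : R,
        (∀ w ∈ L, ρ.ρ σ w = x • w) ∧ (∀ v : ρ.V, ρ.ρ σ v - z • v ∈ L) ∧
        ∀ (n a : ℕ), (∀ μ : AlgebraicClosure ℚ, μ ^ p ^ n = 1 → σ μ = μ ^ a) →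
          x - (a : R) * z ∈ Ideal.span {((p ^ n : ℕ) : R)}) := by
  obtain ⟨u, hu'⟩ := hu
  set t := tt ρ σ₀ with ht
  set N := NN ρ σ₀ with hN
  set a : R := ((u⁻¹ : Rˣ) : R) with ha
  have hat : a * t = 1 := by rw [ha, ← hu']; exact u.inv_mul
  have hta : t * a = 1 := by rw [mul_comm]; exact hat
  set e : Module.End R ρ.V := a • N with he
  -- pointwise forms of the equations
  have psq : ∀ v, N (N v) = t • N v := by
    intro v
    have := LinearMap.congr_fun h.sq v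
    rwa [LinearMap.sub_apply, Module.End.mul_apply, LinearMap.smul_apply, LinearMap.zero_apply,
      sub_eq_zero] at this
  have pstab : ∀ σ ∈ P.decompositionSubgroup ℚ, ∀ v, N (ρ.ρ σ (N v)) = t • ρ.ρ σ (N v) := by
    intro σ hσ v
    have := LinearMap.congr_fun (h.stab σ hσ) v
    rw [Module.End.mul_apply, Module.End.mul_apply, LinearMap.sub_apply, LinearMap.smul_apply,
      Module.End.one_apply, LinearMap.zero_apply, sub_eq_zero] at this
    exact this.symm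
  have ptriv : ∀ σ ∈ P.inertiaSubgroupIn ℚ, ∀ v, N (ρ.ρ σ v - v) = t • (ρ.ρ σ v - v) := by
    intro σ hσ v
    have := LinearMap.congr_fun (h.triv σ hσ) v
    have h1 : (ρ.ρ σ - 1) v = ρ.ρ σ v - v := by rw [LinearMap.sub_apply, Module.End.one_apply]
    rw [Module.End.mul_apply, h1, LinearMap.sub_apply, LinearMap.smul_apply,
      Module.End.one_apply, LinearMap.zero_apply, sub_eq_zero] at this
    exact this.symm
  have pscalL : ∀ σ ∈ P.decompositionSubgroup ℚ, ∀ v, t • ρ.ρ σ (N v) = TT ρ σ₀ σ • N v := by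
    intro σ hσ v
    have := LinearMap.congr_fun (h.scalL σ hσ) v
    rwa [LinearMap.sub_apply, LinearMap.smul_apply, LinearMap.smul_apply, Module.End.mul_apply,
      LinearMap.zero_apply, sub_eq_zero] at this
  -- `e` is an idempotent of trace one
  have hee : e * e = e := by
    refine LinearMap.ext fun v => ?_
    rw [Module.End.mul_apply, he, LinearMap.smul_apply, LinearMap.smul_apply, map_smul, psq,
      smul_smul, smul_smul, mul_assoc, hat, mul_one]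
  have htr : LinearMap.trace R ρ.V e = 1 := by
    rw [he, map_smul, hN]
    unfold NN
    rw [map_sub, LinearMap.trace_one, ρ.finrank_eq, smul_eq_mul]
    have : LinearMap.trace R ρ.V (ρ.ρ σ₀) - ((2 : ℕ) : R) = t := by rw [ht]; unfold tt; norm_num
    rw [this, hat]
  let b₀ : Module.Basis (Fin 2) R ρ.V := Module.finBasisOfFinrankEq R ρ.V ρ.finrank_eq
  obtain ⟨b', hb'⟩ := exists_basis_range_eq_span b₀ e hee htr
  have hmem : ∀ v, e v ∈ LinearMap.range e := fun v => ⟨v, rfl⟩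
  -- `w ∈ L` iff `e w = w`; and `N w = t w` on `L`
  have hfix : ∀ w ∈ LinearMap.range e, N w = t • w := by
    rintro _ ⟨v, rfl⟩
    rw [he, LinearMap.smul_apply, map_smul, psq, smul_comm]
  have hin : ∀ w : ρ.V, N w = t • w → w ∈ LinearMap.range e := by
    intro w hw
    refine ⟨w, ?_⟩
    rw [he, LinearMap.smul_apply, hw, smul_smul, hat, one_smul]
  have hNmem : ∀ v, N v ∈ LinearMap.range e := fun v => hin _ (psq v)
  refine ⟨LinearMap.range e, ⟨b', hb'⟩, ?_, ?_, ?_⟩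
  · rintro σ hσ _ ⟨v, rfl⟩
    refine hin _ ?_
    rw [he, LinearMap.smul_apply, map_smul, map_smul, pstab σ hσ v, smul_comm]
  · intro σ hσ v
    exact hin _ (ptriv σ hσ v)
  · intro σ hσ
    refine ⟨a * TT ρ σ₀ σ, LinearMap.trace R ρ.V (ρ.ρ σ) - a * TT ρ σ₀ σ, ?_, ?_, ?_⟩
    · rintro _ ⟨v, rfl⟩
      rw [he, LinearMap.smul_apply, map_smul]
      have h1 : ρ.ρ σ (N v) = (a * TT ρ σ₀ σ) • N v := by
        have := pscalL σ hσ v
        calc ρ.ρ σ (N v) = (a * t) • ρ.ρ σ (N v) := by rw [hat, one_smul]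
          _ = a • t • ρ.ρ σ (N v) := by rw [smul_smul]
          _ = (a * TT ρ σ₀ σ) • N v := by rw [this, smul_smul]
      rw [h1, smul_comm]
    · intro v
      refine hin _ ?_
      have := LinearMap.congr_fun (h.scalQ σ hσ) v
      rw [Module.End.mul_apply, LinearMap.zero_apply, LinearMap.sub_apply, LinearMap.smul_apply,
        Module.End.one_apply, sub_eq_zero] at this
      have h1 : (tt ρ σ₀ • ρ.ρ σ - (tt ρ σ₀ * LinearMap.trace R ρ.V (ρ.ρ σ) - TT ρ σ₀ σ) •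
          (1 : Module.End R ρ.V)) v
          = t • (ρ.ρ σ v - (LinearMap.trace R ρ.V (ρ.ρ σ) - a * TT ρ σ₀ σ) • v) := by
        rw [LinearMap.sub_apply, LinearMap.smul_apply, LinearMap.smul_apply, Module.End.one_apply,
          smul_sub, smul_smul]
        congr 2
        rw [mul_sub, ← mul_assoc, hta, one_mul]
      rw [h1, map_smul, smul_smul] at this
      -- cancel the unit `t`
      have h2 := congrArg (fun w => a • w) this
      simp only [smul_smul] at h2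
      rw [hat, one_smul, ← mul_assoc, hat, one_mul] at h2
      exact h2.symm
    · intro n a' ha'
      have := h.congr σ hσ n a' ha'
      have h1 : a * TT ρ σ₀ σ - (a' : R) * (LinearMap.trace R ρ.V (ρ.ρ σ) - a * TT ρ σ₀ σ)
          = a * (TT ρ σ₀ σ - (a' : R) *
              (tt ρ σ₀ * LinearMap.trace R ρ.V (ρ.ρ σ) - TT ρ σ₀ σ)) := by
        linear_combination ((a' : R) * LinearMap.trace R ρ.V (ρ.ρ σ)) * hat
      rw [h1]
      exact Ideal.mul_mem_left _ _ this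

end Line

/-! ### The main statements -/

section Main

variable {R : Type} [CommRing R] [IsLocalRing R] {ι : Type} [Nonempty ι] {A : ι → Type}
  [∀ i, CommRing (A i)] [∀ i, IsLocalRing (A i)] {ψ : ∀ i, R →+* A i} (hψ : ∀ i, IsLocalHom (ψ i))
  (ρ : GaloisRepAdic R)

/-- **JOIN-strict: strict ordinarity descends along a saturated jointly injective family of local homomorphisms**
(`p` odd). -/
theorem isStrictOrdinaryAt_of_family (hinj : JointlyInjective ψ) {p : ℕ} [hpf : Fact p.Prime]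
    (hp2 : p ≠ 2) (hsat : Sat ψ p)
    (h : ∀ i, (ρ.baseChangeAlong (ψ i) (hψ i)).IsStrictOrdinaryAt p) : ρ.IsStrictOrdinaryAt p := by
  obtain ⟨i₀⟩ := ‹Nonempty ι›
  refine ⟨natCast_mem_maximalIdeal_of_map (ψ i₀) (h i₀).1, fun P hP => ?_⟩
  obtain ⟨σ₀, hσ₀, ζ, hζ, hne⟩ := Fermat.Agent.S56lib.Tame.exists_inertia_moves p hp2 P hP
  have heqs : StrictEqs P p ρ σ₀ :=
    StrictEqs.of_family hψ ρ hinj hsat fun i => (strictEqs_of_isStrictOrdinaryAt (h i) hP hσ₀).1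
  have hu : IsUnit (tt ρ σ₀) := by
    have h1 := isUnit_tt (h i₀) hP hσ₀ hζ hne
    rw [← map_tt hψ ρ i₀ σ₀] at h1
    exact isUnit_of_family hψ i₀ h1
  exact heqs.exists_line hu

/-- ordinarity of the join of STRICTLY ordinary representations -/
theorem isOrdinaryAt_of_family (hinj : JointlyInjective ψ) {p : ℕ} [hpf : Fact p.Prime]
    (hp2 : p ≠ 2) (hsat : Sat ψ p)
    (h : ∀ i, (ρ.baseChangeAlong (ψ i) (hψ i)).IsStrictOrdinaryAt p) : ρ.IsOrdinaryAt p :=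
  (isStrictOrdinaryAt_of_family hψ ρ hinj hp2 hsat h).isOrdinaryAt

end Main

end Fermat.Agent.S59lib.RT.Fam
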