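/-
S59lib / RT / Fam / Main  (helper9) — Project I, brick JOIN-strict: the packaged statements.

For a jointly injective family of local `𝒪`-algebra homomorphisms `φ i : R →ₐ[𝒪] A i` between finite `𝒪`-algebras
(`𝒪` noetherian) and a representation `ρ` over `R`:

* `sat_of_algHom`                  : the family is saturated at every `p`;
* `strictOrdinaryCondition_of_family`, `𝒟so_of_family` : the strict ordinary deformation types descend;
* `𝒟fl_of_family`                  : the flat deformation type descends, GIVEN the flatness of `ρ` at `p` (JOIN-flat).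
-/
import Mathlib
import Fermat.Agent.S59lib.RT.Fam.Strict
import Fermat.Agent.S56lib.Main.Final

set_option autoImplicit false
set_option linter.unusedSectionVars false
set_option linter.style.haveILetI false

noncomputable section

namespace Fermat.Agent.S59lib.RT.Fam

open IsLocalRing Fermat.Agent.S56lib.Main

variable {𝒪 : Type} [CommRing 𝒪] [IsNoetherianRing 𝒪]
  {R : Type} [CommRing R] [IsLocalRing R] [Algebra 𝒪 R]
  {ι : Type} [Finite ι] [Nonempty ι] {A : ι → Type} [∀ i, CommRing (A i)] [∀ i, IsLocalRing (A i)]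
  [∀ i, Algebra 𝒪 (A i)] [∀ i, Module.Finite 𝒪 (A i)]
  (φ : ∀ i, R →ₐ[𝒪] A i) (hφ : ∀ i, IsLocalHom (φ i : R →+* A i))
  (hinj : ∀ x : R, (∀ i, φ i x = 0) → x = 0) (ρ : GaloisRepAdic R)

include hinj in
theorem jointlyInjective_of_algHom : JointlyInjective (fun i => (φ i : R →+* A i)) := hinj

include hinj in
/-- a jointly injective family of finite algebras over a noetherian ring is saturated -/
theorem sat_of_algHom (p : ℕ) : Sat (fun i => (φ i : R →+* A i)) p := sat_of_finite φ hinj p

include hinj in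
/-- **the strict ordinary deformation condition descends** -/
theorem strictOrdinaryCondition_of_family {p : ℕ} [hpf : Fact p.Prime] (hp2 : p ≠ 2) (S : Finset ℕ)
    (h : ∀ i, GaloisRep.strictOrdinaryCondition 𝒪 p S
      (ρ.baseChangeAlong (φ i : R →+* A i) (hφ i))) :
    GaloisRep.strictOrdinaryCondition 𝒪 p S ρ :=
  ⟨detIsCyclotomic_of_family (ψ := fun i => (φ i : R →+* A i)) hφ ρ (sat_of_algHom φ hinj p)
      fun i => (h i).1,
    isStrictOrdinaryAt_of_family (ψ := fun i => (φ i : R →+* A i)) hφ ρ hinj hp2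
      (sat_of_algHom φ hinj p) fun i => (h i).2.1,
    fun q hq hqS => isUnramifiedAt_of_family (ψ := fun i => (φ i : R →+* A i)) hφ ρ hinj
      fun i => (h i).2.2 q hq hqS⟩

include hinj in
/-- **the strict ordinary type `𝒟so` of S56 descends** -/
theorem 𝒟so_of_family {p : ℕ} [hpf : Fact p.Prime] (hp2 : p ≠ 2) (Smin S : Finset ℕ)
    (h : ∀ i, 𝒟so 𝒪 p Smin S (ρ.baseChangeAlong (φ i : R →+* A i) (hφ i))) : 𝒟so 𝒪 p Smin S ρ :=
  ⟨strictOrdinaryCondition_of_family φ hφ hinj ρ hp2 S fun i => (h i).1,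
    fun q hq hqp hqne => isUnipotentOnInertiaAt_of_family (ψ := fun i => (φ i : R →+* A i)) hφ ρ hinj
      fun i => (h i).2 q hq hqp hqne⟩

include hinj in
/-- **the flat type `𝒟fl` of S56 descends**, given the flatness of `ρ` at `p` -/
theorem 𝒟fl_of_family {p : ℕ} [hpf : Fact p.Prime] (Smin S : Finset ℕ) (hflat : ρ.IsFlatAt p)
    (h : ∀ i, 𝒟fl 𝒪 p Smin S (ρ.baseChangeAlong (φ i : R →+* A i) (hφ i))) : 𝒟fl 𝒪 p Smin S ρ :=
  ⟨⟨detIsCyclotomic_of_family (ψ := fun i => (φ i : R →+* A i)) hφ ρ (sat_of_algHom φ hinj p)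
      fun i => (h i).1.1, hflat,
    fun q hq hqS => isUnramifiedAt_of_family (ψ := fun i => (φ i : R →+* A i)) hφ ρ hinj
      fun i => (h i).1.2.2 q hq hqS⟩,
    fun q hq hqp hqne => isUnipotentOnInertiaAt_of_family (ψ := fun i => (φ i : R →+* A i)) hφ ρ hinj
      fun i => (h i).2 q hq hqp hqne⟩

end Fermat.Agent.S59lib.RT.Fam
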