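/-
S59lib / RT / Fam / Ord  (helper9) — Project I, brick JOIN-ord (needed by the step at `p`).

**Ordinarity (NOT strict) descends along a jointly injective family of local homomorphisms**, for representations with
cyclotomic determinant (`p` odd).

As in `Fam/Strict`: for `σ₀` in the inertia group at `P ∣ p` moving `ζ_p`, `N := ρ σ₀ − 1`, `t := tr ρ σ₀ − 2 = det ρ σ₀ − 1`
(a unit because the determinant is cyclotomic), the line of an ordinary representation is the range of the idempotent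
`t⁻¹ N`, and the conditions of `IsOrdinaryAt` are the EQUATIONS `OrdEqs`.

* `OrdEqs`, `ordEqs_of_line`, `OrdEqs.of_family`, `OrdEqs.exists_line`;
* `isUnit_tt_of_isOrdinaryAt`;
* **`isOrdinaryAt_of_family_ord`**.
-/
import Mathlib
import Fermat.Agent.S59lib.RT.Fam.Strict

set_option autoImplicit false
set_option linter.unusedSectionVars false
set_option linter.style.haveILetI false

noncomputable section

namespace Fermat.Agent.S59lib.RT.Fam

open IsLocalRing Fermat.Agent.TeamA.Rep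

open scoped TensorProduct

local notation "Qb" => AlgebraicClosure ℚ
local notation "GQ" => (AlgebraicClosure ℚ ≃ₐ[ℚ] AlgebraicClosure ℚ)

section Eqs

variable {B : Type} [CommRing B] [IsLocalRing B]

/-- **the equational form of ordinarity at the place `P`**, relative to `σ₀` -/
structure OrdEqs (P : ValuationSubring Qb) (ρ : GaloisRepAdic B) (σ₀ : GQ) : Prop where
  sq : NN ρ σ₀ * NN ρ σ₀ - tt ρ σ₀ • NN ρ σ₀ = 0
  stab : ∀ σ ∈ P.decompositionSubgroup ℚ, (tt ρ σ₀ • 1 - NN ρ σ₀) * ρ.ρ σ * NN ρ σ₀ = 0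
  triv : ∀ σ ∈ P.inertiaSubgroupIn ℚ, (tt ρ σ₀ • 1 - NN ρ σ₀) * (ρ.ρ σ - 1) = 0

/-- the determinant of an endomorphism which is upper triangular in the basis `b` -/
theorem det_eq_mul_of_upper {R : Type*} [CommRing R] {V : Type*} [AddCommGroup V] [Module R V]
    (b : Module.Basis (Fin 2) R V) (f : Module.End R V) {x z : R}
    (h0 : f (b 0) = x • b 0) (h1 : f (b 1) - z • b 1 ∈ Submodule.span R {b 0}) :
    LinearMap.det f = x * z := by
  rw [← LinearMap.det_toMatrix b f, Matrix.det_fin_two, LinearMap.toMatrix_apply,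
    LinearMap.toMatrix_apply, LinearMap.toMatrix_apply, LinearMap.toMatrix_apply, h0]
  have h2 := repr_one_of_mem_span_zero b h1
  rw [map_sub, Finsupp.sub_apply, sub_eq_zero] at h2
  rw [h2]
  simp [Finsupp.single_apply]

/-- **the equations hold for an ordinary representation**, and `t = det ρ σ₀ − 1`. -/
theorem ordEqs_of_line {P : ValuationSubring Qb} {ρ : GaloisRepAdic B}
    (b : Module.Basis (Fin 2) B ρ.V)
    (hD : ∀ σ ∈ P.decompositionSubgroup ℚ, ∀ v ∈ Submodule.span B {b 0},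
      ρ.ρ σ v ∈ Submodule.span B {b 0})
    (hI : ∀ σ ∈ P.inertiaSubgroupIn ℚ, ∀ v : ρ.V, ρ.ρ σ v - v ∈ Submodule.span B {b 0})
    {σ₀ : GQ} (hσ₀ : σ₀ ∈ P.inertiaSubgroupIn ℚ) :
    OrdEqs P ρ σ₀ ∧ tt ρ σ₀ = LinearMap.det (ρ.ρ σ₀) - 1 := by
  set L := Submodule.span B {b 0} with hL
  have hb0 : b 0 ∈ L := Submodule.mem_span_singleton_self _
  -- the scalar of `σ₀` on the line
  obtain ⟨x₀, hx₀b⟩ := Submodule.mem_span_singleton.mp
    (hD σ₀ (mem_decomposition_of_mem_inertia hσ₀) _ hb0)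
  have hx₀ : ∀ w ∈ L, ρ.ρ σ₀ w = x₀ • w := by
    intro w hw
    obtain ⟨c, rfl⟩ := Submodule.mem_span_singleton.mp hw
    rw [map_smul, ← hx₀b, smul_comm]
  have h11 : ρ.ρ σ₀ (b 1) - (1 : B) • b 1 ∈ L := by rw [one_smul]; exact hI σ₀ hσ₀ (b 1)
  have ht : tt ρ σ₀ = x₀ - 1 := by
    unfold tt
    rw [trace_eq_add_of_upper b (ρ.ρ σ₀) (hx₀ _ hb0) h11]
    ring
  have hdet : LinearMap.det (ρ.ρ σ₀) = x₀ := by
    rw [det_eq_mul_of_upper b (ρ.ρ σ₀) (hx₀ _ hb0) h11, mul_one]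
  -- the basic facts on `N`
  have f1 : ∀ v, NN ρ σ₀ v ∈ L := fun v => hI σ₀ hσ₀ v
  have f2 : ∀ w ∈ L, NN ρ σ₀ w = tt ρ σ₀ • w := by
    intro w hw
    show ρ.ρ σ₀ w - w = _
    rw [hx₀ w hw, ht, sub_smul, one_smul]
  have f4 : ∀ w ∈ L, (tt ρ σ₀ • (1 : Module.End B ρ.V) - NN ρ σ₀) w = 0 := by
    intro w hw
    rw [LinearMap.sub_apply, LinearMap.smul_apply, Module.End.one_apply, f2 w hw, sub_self]
  refine ⟨⟨?_, ?_, ?_⟩, by rw [ht, hdet]⟩
  · refine LinearMap.ext fun v => ?_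
    rw [LinearMap.sub_apply, Module.End.mul_apply, f2 _ (f1 v), LinearMap.smul_apply, sub_self,
      LinearMap.zero_apply]
  · intro σ hσ
    refine LinearMap.ext fun v => ?_
    rw [Module.End.mul_apply, Module.End.mul_apply, LinearMap.zero_apply]
    exact f4 _ (hD σ hσ _ (f1 v))
  · intro σ hσ
    refine LinearMap.ext fun v => ?_
    have h1 : (ρ.ρ σ - 1) v = ρ.ρ σ v - v := by rw [LinearMap.sub_apply, Module.End.one_apply]
    rw [Module.End.mul_apply, LinearMap.zero_apply, h1]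
    exact f4 _ (hI σ hσ v)

theorem ordEqs_of_isOrdinaryAt {P : ValuationSubring Qb} {p : ℕ} {ρ : GaloisRepAdic B}
    (h : ρ.IsOrdinaryAt p) (hP : P.LiesOverPrime p) {σ₀ : GQ}
    (hσ₀ : σ₀ ∈ P.inertiaSubgroupIn ℚ) :
    OrdEqs P ρ σ₀ ∧ tt ρ σ₀ = LinearMap.det (ρ.ρ σ₀) - 1 := by
  obtain ⟨L, ⟨b, rfl⟩, hD, hI⟩ := h P hP
  exact ordEqs_of_line b hD hI hσ₀

/-- `det ρ σ₀ − 1` is a unit when the determinant is cyclotomic and `σ₀` moves a primitive `p`-th root of unity -/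
theorem isUnit_det_sub_one {p : ℕ} [hpf : Fact p.Prime] {ρ : GaloisRepAdic B}
    (hdet : ρ.DetIsCyclotomic p) {σ₀ : GQ} {ζ : Qb} (hζ : IsPrimitiveRoot ζ p) (hne : σ₀ ζ ≠ ζ) :
    IsUnit (LinearMap.det (ρ.ρ σ₀) - 1) := by
  set a := cycExp p σ₀ 1 with ha
  have hact : CycAct p σ₀ 1 a := cycAct_cycExp p σ₀ 1
  have h1 := hdet.2 1 σ₀ a hact
  by_contra hnu
  have hmem : LinearMap.det (ρ.ρ σ₀) - 1 ∈ maximalIdeal B := hnu
  have hpB : ((p ^ 1 : ℕ) : B) ∈ maximalIdeal B := by rw [pow_one]; exact hdet.1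
  have h2 : LinearMap.det (ρ.ρ σ₀) - (a : B) ∈ maximalIdeal B :=
    (Ideal.span_singleton_le_iff_mem (I := maximalIdeal B)).mpr hpB h1
  have h3 : (((a : ℤ) - 1 : ℤ) : B) ∈ maximalIdeal B := by
    have := Ideal.sub_mem _ hmem h2
    have hcalc : LinearMap.det (ρ.ρ σ₀) - 1 - (LinearMap.det (ρ.ρ σ₀) - (a : B)) =
        (((a : ℤ) - 1 : ℤ) : B) := by
      push_cast; ring
    rwa [hcalc] at this
  obtain ⟨c, hc'⟩ := Fermat.Agent.S33lib.TLevel.dvd_of_intCast_mem_maximalIdeal hpf.out hdet.1 h3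
  apply hne
  have hζp : ζ ^ p ^ 1 = 1 := by rw [pow_one]; exact hζ.pow_eq_one
  rw [hact ζ hζp]
  have hζu : IsUnit ζ := IsUnit.of_pow_eq_one hζ.pow_eq_one hpf.out.ne_zero
  obtain ⟨u, rfl⟩ := hζu
  have hup : u ^ (p : ℤ) = 1 := by
    rw [zpow_natCast]
    exact Units.ext (by simpa using hζ.pow_eq_one)
  have hz : u ^ ((a : ℤ)) = u := by
    have ha' : (a : ℤ) = 1 + (p : ℤ) * c := by linarith
    rw [ha', zpow_add, zpow_one, zpow_mul, hup, one_zpow, mul_one]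
  have := congrArg (fun w : Qbˣ => (w : Qb)) hz
  simpa using this

/-- `t = tr ρ σ₀ − 2` is a unit for an ordinary representation with cyclotomic determinant -/
theorem isUnit_tt_of_isOrdinaryAt {P : ValuationSubring Qb} {p : ℕ} [hpf : Fact p.Prime]
    {ρ : GaloisRepAdic B} (h : ρ.IsOrdinaryAt p) (hdet : ρ.DetIsCyclotomic p)
    (hP : P.LiesOverPrime p) {σ₀ : GQ} (hσ₀ : σ₀ ∈ P.inertiaSubgroupIn ℚ) {ζ : Qb}
    (hζ : IsPrimitiveRoot ζ p) (hne : σ₀ ζ ≠ ζ) : IsUnit (tt ρ σ₀) := by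
  rw [(ordEqs_of_isOrdinaryAt h hP hσ₀).2]
  exact isUnit_det_sub_one hdet hζ hne

end Eqs

section Transfer

variable {R : Type} [CommRing R] [IsLocalRing R] {ι : Type} {A : ι → Type} [∀ i, CommRing (A i)]
  [∀ i, IsLocalRing (A i)] {ψ : ∀ i, R →+* A i} (hψ : ∀ i, IsLocalHom (ψ i)) (ρ : GaloisRepAdic R)

/-- **the equations descend along a jointly injective family** -/
theorem OrdEqs.of_family (hinj : JointlyInjective ψ) {P : ValuationSubring Qb} {σ₀ : GQ}
    (h : ∀ i, OrdEqs P (ρ.baseChangeAlong (ψ i) (hψ i)) σ₀) : OrdEqs P ρ σ₀ := by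
  refine ⟨?_, ?_, ?_⟩
  · refine eq_zero_of_bcEnd hψ ρ hinj fun i => ?_
    rw [map_sub, map_mul, bcEnd_smul, bcEnd_NN, map_tt]
    exact (h i).sq
  · intro σ hσ
    refine eq_zero_of_bcEnd hψ ρ hinj fun i => ?_
    rw [map_mul, map_mul, map_sub, bcEnd_smul, map_one, bcEnd_NN, map_tt, bcEnd_ρ]
    exact (h i).stab σ hσ
  · intro σ hσ
    refine eq_zero_of_bcEnd hψ ρ hinj fun i => ?_
    rw [map_mul, map_sub, map_sub, bcEnd_smul, map_one, bcEnd_NN, map_tt, bcEnd_ρ]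
    exact (h i).triv σ hσ

end Transfer

section Line

variable {R : Type} [CommRing R] [IsLocalRing R] {ρ : GaloisRepAdic R}

/-- **the line of a solution of the equations with `t` a unit** -/
theorem OrdEqs.exists_line {P : ValuationSubring Qb} {σ₀ : GQ} (h : OrdEqs P ρ σ₀)
    (hu : IsUnit (tt ρ σ₀)) :
    ∃ L : Submodule R ρ.V,
      (∃ b : Module.Basis (Fin 2) R ρ.V, L = Submodule.span R {b 0}) ∧
      (∀ σ ∈ P.decompositionSubgroup ℚ, ∀ v ∈ L, ρ.ρ σ v ∈ L) ∧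
      (∀ σ ∈ P.inertiaSubgroupIn ℚ, ∀ v : ρ.V, ρ.ρ σ v - v ∈ L) := by
  obtain ⟨u, hu'⟩ := hu
  set t := tt ρ σ₀ with ht
  set N := NN ρ σ₀ with hN
  set a : R := ((u⁻¹ : Rˣ) : R) with ha
  have hat : a * t = 1 := by rw [ha, ← hu']; exact u.inv_mul
  set e : Module.End R ρ.V := a • N with he
  have psq : ∀ v, N (N v) = t • N v := by
    intro v
    have := LinearMap.congr_fun h.sq v
    rwa [LinearMap.sub_apply, Module.End.mul_apply, LinearMap.smul_apply, LinearMap.zero_apply,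
      sub_eq_zero] at this
  have pstab : ∀ σ ∈ P.decompositionSubgroup ℚ, ∀ v, N (ρ.ρ σ (N v)) = t • ρ.ρ σ (N v) := by
    intro σ hσ v
    have := LinearMap.congr_fun (h.stab σ hσ) v
    rw [Module.End.mul_apply, Module.End.mul_apply, LinearMap.sub_apply, LinearMap.smul_apply,
      Module.End.one_apply, LinearMap.zero_apply, sub_eq_zero] at this
    exact this.symm
  have ptriv : ∀ σ ∈ P.inertiaSubgroupIn ℚ, ∀ v, N (ρ.ρ σ v - v) = t • (ρ.ρ σ v - v) := by
    intro σ hσ v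
    have := LinearMap.congr_fun (h.triv σ hσ) v
    have h1 : (ρ.ρ σ - 1) v = ρ.ρ σ v - v := by rw [LinearMap.sub_apply, Module.End.one_apply]
    rw [Module.End.mul_apply, h1, LinearMap.sub_apply, LinearMap.smul_apply,
      Module.End.one_apply, LinearMap.zero_apply, sub_eq_zero] at this
    exact this.symm
  have hee : e * e = e := by
    refine LinearMap.ext fun v => ?_
    rw [Module.End.mul_apply, he, LinearMap.smul_apply, LinearMap.smul_apply, map_smul, psq,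
      smul_smul, smul_smul, mul_assoc, hat, mul_one]
  have htr : LinearMap.trace R ρ.V e = 1 := by
    rw [he, map_smul, hN]
    unfold NN
    rw [map_sub, LinearMap.trace_one, ρ.finrank_eq, smul_eq_mul]
    have : LinearMap.trace R ρ.V (ρ.ρ σ₀) - ((2 : ℕ) : R) = t := by rw [ht]; unfold tt; norm_num
    rw [this, hat]
  let b₀ : Module.Basis (Fin 2) R ρ.V := Module.finBasisOfFinrankEq R ρ.V ρ.finrank_eq
  obtain ⟨b', hb'⟩ := exists_basis_range_eq_span b₀ e hee htr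
  have hin : ∀ w : ρ.V, N w = t • w → w ∈ LinearMap.range e := by
    intro w hw
    refine ⟨w, ?_⟩
    rw [he, LinearMap.smul_apply, hw, smul_smul, hat, one_smul]
  refine ⟨LinearMap.range e, ⟨b', hb'⟩, ?_, ?_⟩
  · rintro σ hσ _ ⟨v, rfl⟩
    refine hin _ ?_
    rw [he, LinearMap.smul_apply, map_smul, map_smul, pstab σ hσ v, smul_comm]
  · intro σ hσ v
    exact hin _ (ptriv σ hσ v)

end Line

section Main

variable {R : Type} [CommRing R] [IsLocalRing R] {ι : Type} [Nonempty ι] {A : ι → Type}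
  [∀ i, CommRing (A i)] [∀ i, IsLocalRing (A i)] {ψ : ∀ i, R →+* A i} (hψ : ∀ i, IsLocalHom (ψ i))
  (ρ : GaloisRepAdic R)

/-- **JOIN-ord: ordinarity descends along a jointly injective family of local homomorphisms**, for representations
with cyclotomic determinant (`p` odd). -/
theorem isOrdinaryAt_of_family_ord (hinj : JointlyInjective ψ) {p : ℕ} [hpf : Fact p.Prime]
    (hp2 : p ≠ 2) (hdet : ∀ i, (ρ.baseChangeAlong (ψ i) (hψ i)).DetIsCyclotomic p)
    (h : ∀ i, (ρ.baseChangeAlong (ψ i) (hψ i)).IsOrdinaryAt p) : ρ.IsOrdinaryAt p := by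
  obtain ⟨i₀⟩ := ‹Nonempty ι›
  intro P hP
  obtain ⟨σ₀, hσ₀, ζ, hζ, hne⟩ := Fermat.Agent.S56lib.Tame.exists_inertia_moves p hp2 P hP
  have heqs : OrdEqs P ρ σ₀ :=
    OrdEqs.of_family hψ ρ hinj fun i => (ordEqs_of_isOrdinaryAt (h i) hP hσ₀).1
  have hu : IsUnit (tt ρ σ₀) := by
    have h1 := isUnit_tt_of_isOrdinaryAt (h i₀) (hdet i₀) hP hσ₀ hζ hne
    rw [← map_tt hψ ρ i₀ σ₀] at h1
    exact isUnit_of_family hψ i₀ h1
  exact heqs.exists_line hu

end Main

end Fermat.Agent.S59lib.RT.Fam
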